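/-
GATE-Z (S15) / [MOD-beta] / GZ-MODB-T5-I24 (helper72), file 1: **power series over the dual numbers**
`R[ε] = TrivSqZeroExt R R`.

A formal power series `F` over `R[ε]` has a "value" `fstPS F` and a "derivative" `sndPS F`, both in
`R⟦X⟧`; `fstPS` is a ring homomorphism and `sndPS` is additive and satisfies the Leibniz rule
`sndPS (F * G) = fstPS F * sndPS G + sndPS F * fstPS G`.  Evaluating a UNIVERSAL formal identity at
a dual point `u + (Du) ε` and taking `sndPS` therefore differentiates it — no derivation on a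
localization is needed.

Mathlib only.
-/
import Mathlib

set_option autoImplicit false

noncomputable section

namespace Fermat.Agent.GZ.Tate.T5D

open PowerSeries TrivSqZeroExt

variable {R : Type*} [CommRing R]

/-- the dual numbers over `R`. -/
abbrev Dual (R : Type*) [CommRing R] : Type _ := TrivSqZeroExt R R

theorem dual_snd_mul (x y : Dual R) : (x * y).snd = x.fst * y.snd + x.snd * y.fst := by
  rw [TrivSqZeroExt.snd_mul, smul_eq_mul, op_smul_eq_mul]

/-- the projection `R[ε] → R`. -/
def fstR (R : Type*) [CommRing R] : Dual R →+* R := (TrivSqZeroExt.fstHom R R R).toRingHom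

@[simp] theorem fstR_apply (x : Dual R) : fstR R x = x.fst := rfl

/-- the value part of a power series over the dual numbers. -/
def fstPS (R : Type*) [CommRing R] : (Dual R)⟦X⟧ →+* R⟦X⟧ := PowerSeries.map (fstR R)

/-- the derivative part of a power series over the dual numbers. -/
def sndPS (R : Type*) [CommRing R] : (Dual R)⟦X⟧ →+ R⟦X⟧ where
  toFun F := PowerSeries.mk fun d => (coeff d F).snd
  map_zero' := by
    ext d
    simp
  map_add' F G := by
    ext d
    simp

@[simp] theorem coeff_fstPS (F : (Dual R)⟦X⟧) (d : ℕ) : coeff d (fstPS R F) = (coeff d F).fst := by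
  rw [fstPS, coeff_map, fstR_apply]

@[simp] theorem coeff_sndPS (F : (Dual R)⟦X⟧) (d : ℕ) : coeff d (sndPS R F) = (coeff d F).snd := by
  show coeff d (PowerSeries.mk fun d => (coeff d F).snd) = _
  rw [coeff_mk]

/-- **Leibniz rule.** -/
theorem sndPS_mul (F G : (Dual R)⟦X⟧) :
    sndPS R (F * G) = fstPS R F * sndPS R G + sndPS R F * fstPS R G := by
  ext d
  rw [coeff_sndPS, map_add, coeff_mul, coeff_mul, coeff_mul, TrivSqZeroExt.snd_sum,
    ← Finset.sum_add_distrib]
  refine Finset.sum_congr rfl fun p _ => ?_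
  rw [dual_snd_mul, coeff_fstPS, coeff_sndPS, coeff_sndPS, coeff_fstPS]

theorem sndPS_pow_succ (F : (Dual R)⟦X⟧) (n : ℕ) :
    sndPS R (F ^ (n + 1)) = (n + 1) • (fstPS R F ^ n * sndPS R F) := by
  induction n with
  | zero => simp
  | succ n ih =>
    rw [pow_succ, sndPS_mul, ih, map_pow]
    simp only [nsmul_eq_mul]
    push_cast
    ring

theorem sndPS_sq (F : (Dual R)⟦X⟧) : sndPS R (F ^ 2) = 2 • (fstPS R F * sndPS R F) := by
  have := sndPS_pow_succ F 1
  simpa using this

theorem sndPS_cube (F : (Dual R)⟦X⟧) : sndPS R (F ^ 3) = 3 • (fstPS R F ^ 2 * sndPS R F) := by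
  have := sndPS_pow_succ F 2
  simpa using this

/-- integer power series have no `ε`-part. -/
theorem sndPS_map_intCast (f : ℤ⟦X⟧) : sndPS R (PowerSeries.map (Int.castRingHom (Dual R)) f) = 0 := by
  ext d
  rw [coeff_sndPS, coeff_map, map_zero]
  simp

theorem fstPS_map_intCast (f : ℤ⟦X⟧) :
    fstPS R (PowerSeries.map (Int.castRingHom (Dual R)) f) =
      PowerSeries.map (Int.castRingHom R) f := by
  ext d
  rw [coeff_fstPS, coeff_map, coeff_map]
  simp

theorem sndPS_C (a : Dual R) : sndPS R (C a) = C a.snd := by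
  ext d
  rw [coeff_sndPS, coeff_C, coeff_C]
  split_ifs <;> simp

theorem fstPS_C (a : Dual R) : fstPS R (C a) = C a.fst := by
  rw [fstPS, map_C, fstR_apply]

theorem sndPS_mk (f : ℕ → Dual R) : sndPS R (PowerSeries.mk f) = PowerSeries.mk fun d => (f d).snd := by
  ext d
  rw [coeff_sndPS, coeff_mk, coeff_mk]

theorem fstPS_mk (f : ℕ → Dual R) : fstPS R (PowerSeries.mk f) = PowerSeries.mk fun d => (f d).fst := by
  ext d
  rw [coeff_fstPS, coeff_mk, coeff_mk]

/-! ### dual points -/

/-- the dual number `a + b ε`. -/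
def dpt (a b : R) : Dual R := inl a + inr b

@[simp] theorem dpt_fst (a b : R) : (dpt a b).fst = a := by simp [dpt]

@[simp] theorem dpt_snd (a b : R) : (dpt a b).snd = b := by simp [dpt]

/-- `(a + s a ε)^m = a^m + m s a^m ε`. -/
theorem dpt_pow (a s : R) (m : ℕ) : dpt a (s * a) ^ m = dpt (a ^ m) (m * s * a ^ m) := by
  induction m with
  | zero =>
    refine TrivSqZeroExt.ext ?_ ?_
    · simp
    · simp
  | succ m ih =>
    rw [pow_succ, ih]
    refine TrivSqZeroExt.ext ?_ ?_
    · simp [pow_succ]
    · rw [dual_snd_mul]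
      simp only [dpt_fst, dpt_snd]
      push_cast
      ring

theorem natCast_pow_fst (m k : ℕ) : (((m : Dual R)) ^ k).fst = (m : R) ^ k := by
  rw [← Nat.cast_pow, TrivSqZeroExt.fst_natCast, Nat.cast_pow]

theorem natCast_pow_snd (m k : ℕ) : (((m : Dual R)) ^ k).snd = 0 := by
  rw [← Nat.cast_pow, TrivSqZeroExt.snd_natCast]

end Fermat.Agent.GZ.Tate.T5D
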