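/-
GATE-Z (S15) / [MOD-beta] / GZ-MODB-T5-I24 (helper72), file 2: **the formal families `D^k X`** and
their behaviour at the dual point.

For `R` a commutative ring, `u u' w : R` (thought of as `u`, `u⁻¹`, `(1 - u)⁻¹`) and `D = u ∂/∂u`:

* `evF k u u' c = c + ∑_{d ≥ 1} (∑_{m ∣ d} m^k (u^m + u'^m)) q^d`,
  `odF k u u' c = c + ∑_{d ≥ 1} (∑_{m ∣ d} m^k (u^m - u'^m)) q^d`;
* `Xf u u' w = evF 1 u u' (u w²) - 2 ∑ σ₁(d) q^d` (`Xf_eq`), `Xf + 2 Yf = odF 2 …` (`Xf_add_two_Yf`);
* `ZF = D X`, `S3F = D² X`, `S4F = D³ X`, `S5F = D⁴ X` with their constant terms `cZ … c5`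
  (`D (u^a w^b) = a u^a w^b + b u^(a+1) w^(b+1)`);
* at the dual point `ũ = u + u ε`, `ũ' = u' - u' ε`, `w̃ = w + u w² ε` of `R[ε]`:
  `fstPS (XF ũ ũ' w̃) = XF u u' w`, `sndPS (Xf ũ ũ' w̃) = ZF u u' w`, `sndPS (ZF ũ …) = S3F u …`, ….

Mathlib + `Weq/Formal.lean` (helper71) + file 1.
-/
import Fermat.Agent.GZ.Tate.Weq.Formal
import Fermat.Agent.GZ.Tate.T5D.Dual

set_option autoImplicit false

noncomputable section

namespace Fermat.Agent.GZ.Tate.T5D

open PowerSeries TrivSqZeroExt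
open Fermat.Agent.GZ.Tate.Weq (xCoeff yCoeff Xf Yf sf a4f a6f WeqF)

variable {R : Type*} [CommRing R]

/-! ### the families -/

/-- `∑_{m ∣ d} m^k (u^m + u'^m)`. -/
def evC (k : ℕ) (u u' : R) (d : ℕ) : R := ∑ m ∈ d.divisors, (m : R) ^ k * (u ^ m + u' ^ m)

/-- `∑_{m ∣ d} m^k (u^m - u'^m)`. -/
def odC (k : ℕ) (u u' : R) (d : ℕ) : R := ∑ m ∈ d.divisors, (m : R) ^ k * (u ^ m - u' ^ m)

@[simp] theorem evC_zero (k : ℕ) (u u' : R) : evC k u u' 0 = 0 := by simp [evC]

@[simp] theorem odC_zero (k : ℕ) (u u' : R) : odC k u u' 0 = 0 := by simp [odC]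

/-- the even family `c + ∑_d (∑_{m ∣ d} m^k (u^m + u'^m)) q^d`. -/
def evF (k : ℕ) (u u' c : R) : R⟦X⟧ := C c + PowerSeries.mk (evC k u u')

/-- the odd family `c + ∑_d (∑_{m ∣ d} m^k (u^m - u'^m)) q^d`. -/
def odF (k : ℕ) (u u' c : R) : R⟦X⟧ := C c + PowerSeries.mk (odC k u u')

theorem coeff_zero_evF (k : ℕ) (u u' c : R) : coeff 0 (evF k u u' c) = c := by
  rw [evF, map_add, coeff_C, if_pos rfl, coeff_mk, evC_zero, add_zero]

theorem coeff_zero_odF (k : ℕ) (u u' c : R) : coeff 0 (odF k u u' c) = c := by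
  rw [odF, map_add, coeff_C, if_pos rfl, coeff_mk, odC_zero, add_zero]

theorem coeff_evF (k : ℕ) (u u' c : R) (d : ℕ) :
    coeff d (evF k u u' c) = (if d = 0 then c else 0) + evC k u u' d := by
  rw [evF, map_add, coeff_C, coeff_mk]

theorem coeff_odF (k : ℕ) (u u' c : R) (d : ℕ) :
    coeff d (odF k u u' c) = (if d = 0 then c else 0) + odC k u u' d := by
  rw [odF, map_add, coeff_C, coeff_mk]

section Nat

variable {S : Type*} [CommRing S] (φ : R →+* S)

theorem map_evF (k : ℕ) (u u' c : R) :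
    PowerSeries.map φ (evF k u u' c) = evF k (φ u) (φ u') (φ c) := by
  rw [evF, evF, map_add, map_C]
  congr 1
  ext d
  rw [coeff_map, coeff_mk, coeff_mk, evC, evC, map_sum]
  refine Finset.sum_congr rfl fun m _ => ?_
  simp

theorem map_odF (k : ℕ) (u u' c : R) :
    PowerSeries.map φ (odF k u u' c) = odF k (φ u) (φ u') (φ c) := by
  rw [odF, odF, map_add, map_C]
  congr 1
  ext d
  rw [coeff_map, coeff_mk, coeff_mk, odC, odC, map_sum]
  refine Finset.sum_congr rfl fun m _ => ?_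
  simp

end Nat

/-! ### the constants -/

/-- the monomial `u^a w^b`. -/
def mono (u w : R) (a b : ℕ) : R := u ^ a * w ^ b

/-- the constant term of `X`: `u w²`. -/
def cX (u w : R) : R := mono u w 1 2

/-- the constant term of `D X = X + 2Y`. -/
def cZ (u w : R) : R := mono u w 1 2 + 2 • mono u w 2 3

/-- the constant term of `D² X` (`= F₃(u)`). -/
def c3 (u w : R) : R := mono u w 1 2 + 6 • mono u w 2 3 + 6 • mono u w 3 4

/-- the constant term of `D³ X`. -/
def c4 (u w : R) : R := mono u w 1 2 + 14 • mono u w 2 3 + 36 • mono u w 3 4 + 24 • mono u w 4 5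

/-- the constant term of `D⁴ X` (`= F₅(u)`). -/
def c5 (u w : R) : R :=
  mono u w 1 2 + 30 • mono u w 2 3 + 150 • mono u w 3 4 + 240 • mono u w 4 5 + 120 • mono u w 5 6

section Nat2

variable {S : Type*} [CommRing S] (φ : R →+* S)

theorem map_mono (u w : R) (a b : ℕ) : φ (mono u w a b) = mono (φ u) (φ w) a b := by
  simp [mono]

theorem map_cX (u w : R) : φ (cX u w) = cX (φ u) (φ w) := by simp [cX, map_mono]

theorem map_cZ (u w : R) : φ (cZ u w) = cZ (φ u) (φ w) := by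
  simp only [cZ, map_add, map_nsmul, map_mono]

theorem map_c3 (u w : R) : φ (c3 u w) = c3 (φ u) (φ w) := by
  simp only [c3, map_add, map_nsmul, map_mono]

theorem map_c4 (u w : R) : φ (c4 u w) = c4 (φ u) (φ w) := by
  simp only [c4, map_add, map_nsmul, map_mono]

theorem map_c5 (u w : R) : φ (c5 u w) = c5 (φ u) (φ w) := by
  simp only [c5, map_add, map_nsmul, map_mono]

end Nat2

/-! ### `X`, `Y` in terms of the families -/

/-- the series `D X = X + 2Y`. -/
def ZF (u u' w : R) : R⟦X⟧ := odF 2 u u' (cZ u w)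

/-- the series `D² X`. -/
def S3F (u u' w : R) : R⟦X⟧ := evF 3 u u' (c3 u w)

/-- the series `D³ X`. -/
def S4F (u u' w : R) : R⟦X⟧ := odF 4 u u' (c4 u w)

/-- the series `D⁴ X`. -/
def S5F (u u' w : R) : R⟦X⟧ := evF 5 u u' (c5 u w)

/-- `∑ σ₁(d) q^d` over `R`. -/
def sig1 (R : Type*) [CommRing R] : R⟦X⟧ := PowerSeries.map (Int.castRingHom R) (sf 1)

theorem Xf_eq (u u' w : R) : Xf u u' w = evF 1 u u' (cX u w) - 2 • sig1 R := by
  ext d
  rw [Weq.coeff_Xf, map_sub, coeff_evF, map_nsmul, sig1, coeff_map, sf, coeff_mk]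
  have hc : cX u w = u * w ^ 2 := by simp [cX, mono]
  have hx : xCoeff u u' d = evC 1 u u' d -
      2 • (Int.castRingHom R) (∑ m ∈ d.divisors, (m : ℤ) ^ 1) := by
    rw [xCoeff, evC, map_sum, Finset.smul_sum, ← Finset.sum_sub_distrib]
    refine Finset.sum_congr rfl fun m _ => ?_
    simp only [pow_one, eq_intCast, Int.cast_natCast, nsmul_eq_mul, Nat.cast_ofNat]
    ring
  split_ifs with h
  · subst h
    simp [hc]
  · rw [hx, zero_add]

theorem two_mul_choose_two (m : ℕ) : m + 2 * m.choose 2 = m ^ 2 := by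
  induction m with
  | zero => simp
  | succ m ih =>
    rw [Nat.choose_succ_succ', Nat.choose_one_right]
    nlinarith [ih]

theorem two_mul_succ_choose_two (m : ℕ) : 2 * (m + 1).choose 2 = m ^ 2 + m := by
  have := two_mul_choose_two m
  rw [Nat.choose_succ_succ', Nat.choose_one_right]
  nlinarith [this]

theorem Xf_add_two_Yf (u u' w : R) : Xf u u' w + 2 • Yf u u' w = ZF u u' w := by
  ext d
  rw [map_add, map_nsmul, Weq.coeff_Xf, Weq.coeff_Yf, ZF, coeff_odF]
  have hc : cZ u w = u * w ^ 2 + 2 • (u ^ 2 * w ^ 3) := by simp [cZ, mono]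
  have hx : xCoeff u u' d + 2 • yCoeff u u' d = odC 2 u u' d := by
    rw [xCoeff, yCoeff, odC, Finset.smul_sum, ← Finset.sum_add_distrib]
    refine Finset.sum_congr rfl fun m _ => ?_
    have h1 : (m : R) + 2 * ((m.choose 2 : ℕ) : R) = (m : R) ^ 2 := by
      exact_mod_cast congrArg (Nat.cast (R := R)) (two_mul_choose_two m)
    have h2 : 2 * (((m + 1).choose 2 : ℕ) : R) = (m : R) ^ 2 + m := by
      exact_mod_cast congrArg (Nat.cast (R := R)) (two_mul_succ_choose_two m)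
    simp only [nsmul_eq_mul, Nat.cast_ofNat]
    linear_combination (u ^ m) * h1 - (u' ^ m) * h2
  split_ifs with h
  · subst h
    simp [hc]
  · rw [hx, zero_add]

/-! ### the dual point -/

/-- `ũ = u + u ε`. -/
def du (u : R) : Dual R := dpt u u

/-- `ũ' = u' - u' ε`. -/
def du' (u' : R) : Dual R := dpt u' (-u')

/-- `w̃ = w + u w² ε`. -/
def dw (u w : R) : Dual R := dpt w (u * w ^ 2)

@[simp] theorem du_fst (u : R) : (du u).fst = u := by simp [du]

@[simp] theorem du'_fst (u' : R) : (du' u').fst = u' := by simp [du']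

@[simp] theorem dw_fst (u w : R) : (dw u w).fst = w := by simp [dw]

theorem du_mul_du' {u u' : R} (h1 : u * u' = 1) : du u * du' u' = 1 := by
  refine TrivSqZeroExt.ext ?_ ?_
  · simp [h1]
  · rw [dual_snd_mul]
    simp [du, du']

theorem one_sub_du_mul_dw {u w : R} (h2 : (1 - u) * w = 1) : (1 - du u) * dw u w = 1 := by
  refine TrivSqZeroExt.ext ?_ ?_
  · simp [h2]
  · rw [dual_snd_mul]
    simp only [du, dw, TrivSqZeroExt.fst_sub, TrivSqZeroExt.snd_sub, TrivSqZeroExt.fst_one,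
      TrivSqZeroExt.snd_one, dpt_fst, dpt_snd]
    linear_combination (u * w) * h2

theorem du_pow (u : R) (m : ℕ) : du u ^ m = dpt (u ^ m) (m * u ^ m) := by
  have := dpt_pow u 1 m
  rw [one_mul, mul_one] at this
  exact this

theorem du'_pow (u' : R) (m : ℕ) : du' u' ^ m = dpt (u' ^ m) (-(m * u' ^ m)) := by
  have := dpt_pow u' (-1) m
  rw [neg_one_mul] at this
  rw [du', this]
  congr 1
  ring

theorem dw_pow (u w : R) (b : ℕ) : dw u w ^ b = dpt (w ^ b) (b * (u * w) * w ^ b) := by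
  have := dpt_pow w (u * w) b
  rw [← this, dw]
  congr 2
  ring

theorem mono_dual_fst (u w : R) (a b : ℕ) : (mono (du u) (dw u w) a b).fst = mono u w a b := by
  rw [mono, mono, du_pow, dw_pow, TrivSqZeroExt.fst_mul, dpt_fst, dpt_fst]

theorem mono_dual_snd (u w : R) (a b : ℕ) :
    (mono (du u) (dw u w) a b).snd = a • mono u w a b + b • mono u w (a + 1) (b + 1) := by
  rw [mono, mono, mono, du_pow, dw_pow, dual_snd_mul]
  simp only [dpt_fst, dpt_snd, nsmul_eq_mul]
  ring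

theorem cX_dual_fst (u w : R) : (cX (du u) (dw u w)).fst = cX u w := by
  simp only [cX, mono_dual_fst]

theorem cX_dual_snd (u w : R) : (cX (du u) (dw u w)).snd = cZ u w := by
  simp only [cX, cZ, mono_dual_snd]
  simp

theorem cZ_dual_fst (u w : R) : (cZ (du u) (dw u w)).fst = cZ u w := by
  simp only [cZ, TrivSqZeroExt.fst_add, TrivSqZeroExt.fst_smul, mono_dual_fst]

theorem cZ_dual_snd (u w : R) : (cZ (du u) (dw u w)).snd = c3 u w := by
  simp only [cZ, c3, TrivSqZeroExt.snd_add, TrivSqZeroExt.snd_smul, mono_dual_snd]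
  simp only [nsmul_eq_mul]
  push_cast
  ring

theorem c3_dual_fst (u w : R) : (c3 (du u) (dw u w)).fst = c3 u w := by
  simp only [c3, TrivSqZeroExt.fst_add, TrivSqZeroExt.fst_smul, mono_dual_fst]

theorem c3_dual_snd (u w : R) : (c3 (du u) (dw u w)).snd = c4 u w := by
  simp only [c3, c4, TrivSqZeroExt.snd_add, TrivSqZeroExt.snd_smul, mono_dual_snd]
  simp only [nsmul_eq_mul]
  push_cast
  ring

theorem c4_dual_fst (u w : R) : (c4 (du u) (dw u w)).fst = c4 u w := by
  simp only [c4, TrivSqZeroExt.fst_add, TrivSqZeroExt.fst_smul, mono_dual_fst]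

theorem c4_dual_snd (u w : R) : (c4 (du u) (dw u w)).snd = c5 u w := by
  simp only [c4, c5, TrivSqZeroExt.snd_add, TrivSqZeroExt.snd_smul, mono_dual_snd]
  simp only [nsmul_eq_mul]
  push_cast
  ring

/-! ### the families at the dual point -/

theorem fstPS_evF (k : ℕ) (u u' : R) (c : Dual R) :
    fstPS R (evF k (du u) (du' u') c) = evF k u u' c.fst := by
  rw [fstPS, map_evF]
  simp

theorem fstPS_odF (k : ℕ) (u u' : R) (c : Dual R) :
    fstPS R (odF k (du u) (du' u') c) = odF k u u' c.fst := by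
  rw [fstPS, map_odF]
  simp

theorem sndPS_evF (k : ℕ) (u u' : R) (c : Dual R) :
    sndPS R (evF k (du u) (du' u') c) = odF (k + 1) u u' c.snd := by
  rw [evF, map_add, sndPS_C, sndPS_mk, odF]
  congr 2
  funext d
  rw [evC, TrivSqZeroExt.snd_sum, odC]
  refine Finset.sum_congr rfl fun m _ => ?_
  rw [dual_snd_mul, natCast_pow_fst, natCast_pow_snd, du_pow, du'_pow]
  simp only [TrivSqZeroExt.fst_add, TrivSqZeroExt.snd_add, dpt_fst, dpt_snd]
  ring

theorem sndPS_odF (k : ℕ) (u u' : R) (c : Dual R) :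
    sndPS R (odF k (du u) (du' u') c) = evF (k + 1) u u' c.snd := by
  rw [odF, map_add, sndPS_C, sndPS_mk, evF]
  congr 2
  funext d
  rw [odC, TrivSqZeroExt.snd_sum, evC]
  refine Finset.sum_congr rfl fun m _ => ?_
  rw [dual_snd_mul, natCast_pow_fst, natCast_pow_snd, du_pow, du'_pow]
  simp only [TrivSqZeroExt.fst_sub, TrivSqZeroExt.snd_sub, dpt_fst, dpt_snd]
  ring

theorem fstPS_sig1 : fstPS R (sig1 (Dual R)) = sig1 R := fstPS_map_intCast _

theorem sndPS_sig1 : sndPS R (sig1 (Dual R)) = 0 := sndPS_map_intCast _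

theorem fstPS_Xf (u u' w : R) : fstPS R (Xf (du u) (du' u') (dw u w)) = Xf u u' w := by
  rw [fstPS, Weq.map_Xf]
  simp

theorem sndPS_Xf (u u' w : R) : sndPS R (Xf (du u) (du' u') (dw u w)) = ZF u u' w := by
  rw [Xf_eq, map_sub, sndPS_evF, map_nsmul, sndPS_sig1, smul_zero, sub_zero, cX_dual_snd, ZF]

theorem fstPS_ZF (u u' w : R) : fstPS R (ZF (du u) (du' u') (dw u w)) = ZF u u' w := by
  rw [ZF, fstPS_odF, cZ_dual_fst, ZF]

theorem sndPS_ZF (u u' w : R) : sndPS R (ZF (du u) (du' u') (dw u w)) = S3F u u' w := by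
  rw [ZF, sndPS_odF, cZ_dual_snd, S3F]

theorem fstPS_S3F (u u' w : R) : fstPS R (S3F (du u) (du' u') (dw u w)) = S3F u u' w := by
  rw [S3F, fstPS_evF, c3_dual_fst, S3F]

theorem sndPS_S3F (u u' w : R) : sndPS R (S3F (du u) (du' u') (dw u w)) = S4F u u' w := by
  rw [S3F, sndPS_evF, c3_dual_snd, S4F]

theorem fstPS_S4F (u u' w : R) : fstPS R (S4F (du u) (du' u') (dw u w)) = S4F u u' w := by
  rw [S4F, fstPS_odF, c4_dual_fst, S4F]

theorem sndPS_S4F (u u' w : R) : sndPS R (S4F (du u) (du' u') (dw u w)) = S5F u u' w := by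
  rw [S4F, sndPS_odF, c4_dual_snd, S5F]

/-! ### naturality of the named series -/

section Nat3

variable {S : Type*} [CommRing S] (φ : R →+* S)

theorem map_ZF (u u' w : R) : PowerSeries.map φ (ZF u u' w) = ZF (φ u) (φ u') (φ w) := by
  rw [ZF, map_odF, map_cZ, ZF]

theorem map_S3F (u u' w : R) : PowerSeries.map φ (S3F u u' w) = S3F (φ u) (φ u') (φ w) := by
  rw [S3F, map_evF, map_c3, S3F]

theorem map_S4F (u u' w : R) : PowerSeries.map φ (S4F u u' w) = S4F (φ u) (φ u') (φ w) := by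
  rw [S4F, map_odF, map_c4, S4F]

theorem map_S5F (u u' w : R) : PowerSeries.map φ (S5F u u' w) = S5F (φ u) (φ u') (φ w) := by
  rw [S5F, map_evF, map_c5, S5F]

end Nat3

end Fermat.Agent.GZ.Tate.T5D
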