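/-
GATE-Z (S15) / [MOD-beta] / GZ-MODB-T5-I24 (helper72), file 3: **the formal identities (I2), (I4)**.

From the UNIVERSAL formal Weierstrass equation
`WeqUniv : ∀ (S : Type) [CommRing S] (u u' w : S), u u' = 1 → (1 - u) w = 1 → WeqF u u' w`
(the output of the route `GZ/Tate/Weq/*`) we derive, for EVERY commutative ring `S` and
`u u' w : S` with `u u' = 1`, `(1 - u) w = 1`:

* `i2F : S3F = 6 Xf² + Xf + 2 a₄`            (`D² X = 6X² + X + 2a₄`),
* `i3F : S4F = (12 Xf + 1) ZF`,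
* `i4F : S5F = 120 Xf³ + 30 Xf² + (72 a₄ + 1) Xf + 48 a₆ + 2 a₄`.

Method: the universal identity at the dual point `ũ = u + u ε` of `S[ε]`, `ε`-component
(`= D` of the identity); one cancellation of `2 ZF` in the universal domain
`UA = ℤ[t, t⁻¹, (1 - t)⁻¹]`.
-/
import Fermat.Agent.GZ.Tate.Weq.Universal
import Fermat.Agent.GZ.Tate.T5D.Formal

set_option autoImplicit false

noncomputable section

namespace Fermat.Agent.GZ.Tate.T5D

open PowerSeries TrivSqZeroExt
open Fermat.Agent.GZ.Tate.Weq (xCoeff yCoeff Xf Yf sf a4f a6f WeqF UA uA u'A wA liftUA tt)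

/-- the universal formal Weierstrass equation. -/
def WeqUniv : Prop :=
  ∀ (S : Type) [CommRing S] (u u' w : S), u * u' = 1 → (1 - u) * w = 1 → WeqF u u' w

/-- `a₄` as a power series over `R`. -/
def A4 (R : Type*) [CommRing R] : R⟦X⟧ := PowerSeries.map (Int.castRingHom R) a4f

/-- `a₆` as a power series over `R`. -/
def A6 (R : Type*) [CommRing R] : R⟦X⟧ := PowerSeries.map (Int.castRingHom R) a6f

section Basic

variable {R : Type*} [CommRing R]

theorem fstPS_A4 : fstPS R (A4 (Dual R)) = A4 R := fstPS_map_intCast _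

theorem sndPS_A4 : sndPS R (A4 (Dual R)) = 0 := sndPS_map_intCast _

theorem fstPS_A6 : fstPS R (A6 (Dual R)) = A6 R := fstPS_map_intCast _

theorem sndPS_A6 : sndPS R (A6 (Dual R)) = 0 := sndPS_map_intCast _

theorem sndPS_one : sndPS R (1 : (Dual R)⟦X⟧) = 0 := by
  have : (1 : (Dual R)⟦X⟧) = C (1 : Dual R) := by simp
  rw [this, sndPS_C]
  simp

variable {S : Type*} [CommRing S] (φ : R →+* S)

theorem map_A4 : PowerSeries.map φ (A4 R) = A4 S := Weq.map_map_intCast φ a4f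

theorem map_A6 : PowerSeries.map φ (A6 R) = A6 S := Weq.map_map_intCast φ a6f

/-- the Weierstrass equation in terms of `Z = X + 2Y`. -/
theorem zform {u u' w : R} (h : WeqF u u' w) :
    ZF u u' w ^ 2 =
      4 • Xf u u' w ^ 3 + Xf u u' w ^ 2 + 4 • (A4 R * Xf u u' w) + 4 • A6 R := by
  rw [← Xf_add_two_Yf]
  unfold WeqF at h
  simp only [nsmul_eq_mul, Nat.cast_ofNat, A4, A6]
  linear_combination 4 * h

end Basic

/-! ### step 1: the derivative of the Weierstrass equation -/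

theorem e2 (hW : WeqUniv) {R : Type} [CommRing R] {u u' w : R} (h1 : u * u' = 1)
    (h2 : (1 - u) * w = 1) :
    2 • (ZF u u' w * S3F u u' w) =
      (12 • Xf u u' w ^ 2 + 2 • Xf u u' w + 4 • A4 R) * ZF u u' w := by
  have h := zform (hW (Dual R) (du u) (du' u') (dw u w) (du_mul_du' h1) (one_sub_du_mul_dw h2))
  have h' := congrArg (sndPS R) h
  rw [sndPS_sq, fstPS_ZF, sndPS_ZF, map_add, map_add, map_add, map_nsmul, map_nsmul, map_nsmul,
    sndPS_cube, sndPS_sq, sndPS_mul, fstPS_Xf, sndPS_Xf, fstPS_A4, sndPS_A4, sndPS_A6] at h'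
  simp only [nsmul_eq_mul, Nat.cast_ofNat] at h' ⊢
  linear_combination h'

/-! ### step 2: cancellation in the universal domain -/

theorem tt_ne_zero : tt ≠ 0 := by
  intro h
  have := congrArg (Polynomial.eval 2) h
  simp [tt] at this

instance instIsDomainUA : IsDomain UA :=
  IsLocalization.isDomain_localization (powers_le_nonZeroDivisors_of_noZeroDivisors tt_ne_zero)

theorem two_ZF_ne_zero : (2 : ℕ) • ZF uA u'A wA ≠ 0 := by
  intro h
  have h1 : (2 : ℚ) * (1 / 2) = 1 := by norm_num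
  have h2 : (1 - (2 : ℚ)) * (-1) = 1 := by norm_num
  have h3 := congrArg (PowerSeries.map (liftUA (2 : ℚ) (1 / 2) (-1) h1 h2)) h
  rw [map_nsmul, map_ZF, Weq.liftUA_uA, Weq.liftUA_u'A, Weq.liftUA_wA, map_zero] at h3
  have h4 := congrArg (coeff 0) h3
  rw [map_nsmul, ZF, coeff_zero_odF, map_zero] at h4
  simp only [cZ, mono] at h4
  norm_num at h4

theorem i2F_UA (hW : WeqUniv) :
    S3F uA u'A wA = 6 • Xf uA u'A wA ^ 2 + Xf uA u'A wA + 2 • A4 UA := by
  have h := e2 hW Weq.uA_mul_u'A Weq.one_sub_uA_mul_wA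
  have h' : (2 • ZF uA u'A wA) *
      (S3F uA u'A wA - (6 • Xf uA u'A wA ^ 2 + Xf uA u'A wA + 2 • A4 UA)) = 0 := by
    simp only [nsmul_eq_mul, Nat.cast_ofNat] at h ⊢
    linear_combination h
  rcases mul_eq_zero.1 h' with h0 | h0
  · exact absurd h0 two_ZF_ne_zero
  · exact sub_eq_zero.1 h0

/-- **(I2), formal and universal**: `D² X = 6 X² + X + 2 a₄`. -/
theorem i2F (hW : WeqUniv) {S : Type*} [CommRing S] (u u' w : S) (h1 : u * u' = 1)
    (h2 : (1 - u) * w = 1) :
    S3F u u' w = 6 • Xf u u' w ^ 2 + Xf u u' w + 2 • A4 S := by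
  have h := congrArg (PowerSeries.map (liftUA u u' w h1 h2)) (i2F_UA hW)
  rw [map_S3F, map_add, map_add, map_nsmul, map_nsmul, map_pow, Weq.map_Xf, map_A4,
    Weq.liftUA_uA, Weq.liftUA_u'A, Weq.liftUA_wA] at h
  exact h

/-! ### step 3: two more derivatives -/

/-- `D³ X = (12 X + 1) D X`. -/
theorem i3F (hW : WeqUniv) {R : Type*} [CommRing R] (u u' w : R) (h1 : u * u' = 1)
    (h2 : (1 - u) * w = 1) :
    S4F u u' w = (12 • Xf u u' w + 1) * ZF u u' w := by
  have h := i2F hW (du u) (du' u') (dw u w) (du_mul_du' h1) (one_sub_du_mul_dw h2)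
  have h' := congrArg (sndPS R) h
  rw [sndPS_S3F, map_add, map_add, map_nsmul, map_nsmul, sndPS_sq, fstPS_Xf, sndPS_Xf,
    sndPS_A4] at h'
  simp only [nsmul_eq_mul, Nat.cast_ofNat] at h' ⊢
  linear_combination h'

/-- `D⁴ X = 12 (D X)² + (12 X + 1) D² X`. -/
theorem i4F_aux (hW : WeqUniv) {R : Type*} [CommRing R] (u u' w : R) (h1 : u * u' = 1)
    (h2 : (1 - u) * w = 1) :
    S5F u u' w = 12 • ZF u u' w ^ 2 + (12 • Xf u u' w + 1) * S3F u u' w := by
  have h := i3F hW (du u) (du' u') (dw u w) (du_mul_du' h1) (one_sub_du_mul_dw h2)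
  have h' := congrArg (sndPS R) h
  rw [sndPS_S4F, sndPS_mul, map_add, map_add, map_nsmul, map_nsmul, map_one, sndPS_one,
    fstPS_Xf, sndPS_Xf, fstPS_ZF, sndPS_ZF] at h'
  simp only [nsmul_eq_mul, Nat.cast_ofNat] at h' ⊢
  linear_combination h'

/-- the universal Weierstrass equation in every universe (through `UA`). -/
theorem weqF_of_univ (hW : WeqUniv) {S : Type*} [CommRing S] (u u' w : S) (h1 : u * u' = 1)
    (h2 : (1 - u) * w = 1) : WeqF u u' w := by
  have h := (hW UA uA u'A wA Weq.uA_mul_u'A Weq.one_sub_uA_mul_wA).map (liftUA u u' w h1 h2)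
  rwa [Weq.liftUA_uA, Weq.liftUA_u'A, Weq.liftUA_wA] at h

/-- **(I4), formal and universal**:
`D⁴ X = 120 X³ + 30 X² + (72 a₄ + 1) X + 48 a₆ + 2 a₄`. -/
theorem i4F (hW : WeqUniv) {S : Type*} [CommRing S] (u u' w : S) (h1 : u * u' = 1)
    (h2 : (1 - u) * w = 1) :
    S5F u u' w = 120 • Xf u u' w ^ 3 + 30 • Xf u u' w ^ 2 + (72 • A4 S + 1) * Xf u u' w +
      48 • A6 S + 2 • A4 S := by
  have hz := zform (weqF_of_univ hW u u' w h1 h2)
  have h2' := i2F hW u u' w h1 h2
  have h4 := i4F_aux hW u u' w h1 h2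
  rw [h4, h2', hz]
  simp only [nsmul_eq_mul, Nat.cast_ofNat]
  ring

end Fermat.Agent.GZ.Tate.T5D
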